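/-
Row 37 (S43), block GLUE, group E0 (helper281).  THE FIELDS `Y₀_iff`, `Y₀_im`, `Y₀_pure` OF `Ctx.raw`.
-/
import Fermat.Agent.S43.Glue.Conc.Ctx
import Fermat.Agent.S43.E0.WIP.Main
import Fermat.Agent.S34.Nodal.Inst.Top.Close

set_option autoImplicit false

noncomputable section

namespace Fermat.Agent.S43.Glue.Conc

open ModularCurve AlgebraicCurve
open Fermat.Agent.S24 Fermat.Agent.S48.BB Fermat.Agent.S48.BB.E
open Fermat.Agent.GAL.E (GQ)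
open Fermat.Agent.S43.E0.Inst (picHom VV Old)

variable {P : FreyPackage} {M q : ℕ} [NeZero q] [NeZero M] (C : Ctx P M q)

instance instNeZeroPp (P : FreyPackage) : NeZero P.p := ⟨P.pp.ne_zero⟩

/-- the eigenvalues -/
def Ctx.ev : ℕ → ℤ := fun l => C.Wm.apOfModel l

/-- **The bridge**: what E0 needs besides the nodes of (ORTH'). -/
structure Ctx.E0Bridge (G : C.Gal) : Prop where
  /-- the dictionary for the `m`-part -/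
  loc : ∀ y : GAL.E.W (q * M) (P.p ^ (C.e + 1)), y ∈ WZ q M C.Wm P.p C.n ↔
    picHom (q * M) (P.p ^ (C.e + 1)) y ∈ VV (q * M) P.p C.Wm.IsGoodPrimeFor C.ev
  /-- (OLD) -/
  old : ∀ D : C1.ALData M q, Old D P.p C.Wm.IsGoodPrimeFor C.ev
  /-- the non Eisenstein prime is odd -/
  two : C.i₀.1 ≠ 2
  /-- L0 -/
  fix : ∀ y ∈ WZ q M C.Wm P.p C.n, y ∈ Triv.Kinf (F0 q M) C.A C.n → r0 q M C.n G.σ y = y
  /-- TRIV -/
  sub : ∀ y : V0 q M C.n, r0 q M C.n G.σ y - y ∈ Triv.Kinf (F0 q M) C.A C.n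

variable {C}

theorem Ctx.E0Bridge.main {G : C.Gal} (B : C.E0Bridge G) (H : E0.Main.Nodes) :
    (∀ y ∈ WZ q M C.Wm P.p C.n, r0 q M C.n G.σ y = y →
      ∃ z ∈ WZ q M C.Wm P.p C.n, y = r0 q M C.n G.σ z - z) ∧
    (∀ y ∈ WZ q M C.Wm P.p C.n, r0 q M C.n G.σ (P.p ^ C.e • y) = P.p ^ C.e • y →
      ∃ z ∈ WZ q M C.Wm P.p C.n, ∃ z' ∈ WZ q M C.Wm P.p C.n,
        y = (r0 q M C.n G.σ z - z) + P.p • z') := by
  have hqM : ¬ q ∣ M := by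
    intro h
    apply C.hyp.cond.sq_not_dvd C.hyp.hq
    rw [pow_two]
    exact Nat.mul_dvd_mul h dvd_rfl
  have hEis : ¬ (P.p : ℤ) ∣ (C.i₀.1 : ℤ) + 1 - C.ev C.i₀.1 := by
    intro h
    have h1 : (P.p : ℤ) ∣ C.Wm.apOfModel C.i₀.1 - C.i₀.1 - 1 := by
      have e1 : (C.Wm.apOfModel C.i₀.1 - C.i₀.1 - 1 : ℤ) = -((C.i₀.1 : ℤ) + 1 - C.ev C.i₀.1) := by
        unfold Ctx.ev; ring
      rw [e1]; exact (dvd_neg).2 h
    have h2 := C.hi₀.isUnit_of_dvd' h1 dvd_rfl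
    exact (Nat.prime_iff_prime_int.1 P.pp).not_isUnit h2
  have key := E0.Main.main (M := M) (q := q) (N := q * M) (p := P.p) H
    S34.Nodal.Inst.Top.nodalTarget (Nat.mul_comm q M) C.hyp.hq C.hyp.hq2 hqM C.A C.hA P.pp P.hp5
    C.hyp.hqp.symm C.Wm.IsGoodPrimeFor C.ev B.old C.i₀.2.1 C.i₀.2.2.2 C.i₀.2.2.1 B.two hEis C.e G.σ
    G.hσ (fun τ hτ => by
      obtain ⟨j, hj⟩ := G.hI τ hτ
      exact ⟨j, fun c hc => hj c ((B.loc c).2 hc)⟩)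
  constructor
  · intro y hy hσ
    obtain ⟨z, hz, e⟩ := key.1 y ((B.loc y).1 hy) hσ
    exact ⟨z, (B.loc z).2 hz, e⟩
  · intro y hy hσ
    obtain ⟨z, z', hz, hz', e⟩ := key.2 y ((B.loc y).1 hy) hσ
    exact ⟨z, (B.loc z).2 hz, z', (B.loc z').2 hz', e⟩

/-- **`Y₀_iff`** -/
theorem Ctx.E0Bridge.Y₀_iff {G : C.Gal} (B : C.E0Bridge G) (H : E0.Main.Nodes) :
    ∀ y ∈ WZ q M C.Wm P.p C.n, r0 q M C.n G.σ y = y ↔ y ∈ Triv.Kinf (F0 q M) C.A C.n := by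
  intro y hy
  constructor
  · intro h
    obtain ⟨z, -, rfl⟩ := (B.main H).1 y hy h
    exact B.sub z
  · exact B.fix y hy

/-- **`Y₀_im`** -/
theorem Ctx.E0Bridge.Y₀_im {G : C.Gal} (B : C.E0Bridge G) (H : E0.Main.Nodes) :
    ∀ y ∈ WZ q M C.Wm P.p C.n, y ∈ Triv.Kinf (F0 q M) C.A C.n →
      ∃ z ∈ WZ q M C.Wm P.p C.n, y = r0 q M C.n G.σ z - z :=
  fun y hy hK => (B.main H).1 y hy (B.fix y hy hK)

/-- **`Y₀_pure`** -/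
theorem Ctx.E0Bridge.Y₀_pure {G : C.Gal} (B : C.E0Bridge G) (H : E0.Main.Nodes) :
    ∀ y ∈ WZ q M C.Wm P.p C.n, P.p ^ C.e • y ∈ Triv.Kinf (F0 q M) C.A C.n →
      ∃ z ∈ WZ q M C.Wm P.p C.n, ∃ z' ∈ WZ q M C.Wm P.p C.n,
        z ∈ Triv.Kinf (F0 q M) C.A C.n ∧ y = z + P.p • z' := by
  intro y hy hK
  have h1 : P.p ^ C.e • y ∈ WZ q M C.Wm P.p C.n := AddSubgroup.nsmul_mem _ hy _
  obtain ⟨z, hz, z', hz', e⟩ := (B.main H).2 y hy (B.fix _ h1 hK)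
  refine ⟨r0 q M C.n G.σ z - z, ?_, z', hz', B.sub z, e⟩
  refine (B.loc _).2 ?_
  have h2 := E0.Inst.picHom_rho (q * M) (P.p ^ (C.e + 1)) G.σ z
  have h3 : picHom (q * M) (P.p ^ (C.e + 1)) (r0 q M C.n G.σ z - z) =
      G.σ • picHom (q * M) (P.p ^ (C.e + 1)) z - picHom (q * M) (P.p ^ (C.e + 1)) z := by
    rw [← h2]
    exact map_sub (picHom (q * M) (P.p ^ (C.e + 1))) _ _
  rw [h3]
  exact AddSubgroup.sub_mem _ (E0.Inst.smul_mem_VV (q * M) P.p _ _ P.pp G.σ ((B.loc z).1 hz))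
    ((B.loc z).1 hz)

end Fermat.Agent.S43.Glue.Conc

end
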